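import Mathlib
import Fermat.Prelude.Def_EllipticCurve_FrobeniusTrace
import Fermat.Prelude.Def_GaloisRep_ComplexConjugation
import Fermat.Agent.S42x.Cyc.H10_Cyc

/-!
# (CYC-adic): the `p`-adic cyclotomic character of `Gal(ℚ̄/ℚ)` with values in a complete local ring
(helper27)

`Qb = AlgebraicClosure ℚ`, `GQ = Qb ≃ₐ[ℚ] Qb`.

* `chiP p : GQ →* ℤ_[p]ˣ` : Mathlib's `cyclotomicCharacter` on `GQ`;
  `chiP_spec`, `chiP_frobenius` (`= ℓ` at EVERY Frobenius over `ℓ ≠ p`), `chiP_inertia`,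
  `chiP_complexConjugation` (`= -1`), `chiP_sub_one_mem` (level `ℚ(μ_{p^n})`),
  `chiP_sub_natCast_mem`;
* `padicTo 𝒪 hp : ℤ_[p] →+* 𝒪` for a local ring `𝒪`, complete for its maximal ideal, with
  `p ∈ 𝔪`;
* `cycAdic p 𝒪 hp : GQ →* 𝒪ˣ` and `stCycAdic : StCycAdic p 𝒪 (cycAdic p 𝒪 hp)`.
-/

set_option autoImplicit false
set_option linter.unusedSectionVars false
set_option linter.unusedVariables false
set_option linter.style.haveILetI false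

noncomputable section

namespace Fermat.Agent.S30x.Cyc.H27

open Fermat.Agent.S42x.Cyc.H10

local notation "Qb" => AlgebraicClosure ℚ
local notation "GQ" => (AlgebraicClosure ℚ ≃ₐ[ℚ] AlgebraicClosure ℚ)

variable (p : ℕ) [Fact p.Prime]

/-- The `p`-adic cyclotomic character of `Gal(ℚ̄/ℚ)`. -/
def chiP : GQ →* ℤ_[p]ˣ :=
  (cyclotomicCharacter Qb p).comp (MulSemiringAction.toRingAut GQ Qb)

theorem chiP_spec (σ : GQ) (n : ℕ) (ζ : Qb) (hζ : ζ ^ p ^ n = 1) :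
    σ ζ = ζ ^ (((chiP p σ : ℤ_[p]ˣ) : ℤ_[p]).toZModPow n).val :=
  cyclotomicCharacter.spec p (MulSemiringAction.toRingAut GQ Qb σ) ζ hζ

theorem exists_primitiveRoot_pow (n : ℕ) : ∃ ζ : Qb, IsPrimitiveRoot ζ (p ^ n) :=
  HasEnoughRootsOfUnity.exists_primitiveRoot Qb (p ^ n)

theorem pow_pos' (n : ℕ) : 0 < p ^ n := pow_pos (Fact.out : p.Prime).pos n

/-- The character is determined modulo `p ^ n` by the action on one primitive root. -/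
theorem chiP_toZModPow_of_primitiveRoot (σ : GQ) (n : ℕ) (ζ : Qb)
    (hζ : IsPrimitiveRoot ζ (p ^ n)) (k : ℕ) (h : σ ζ = ζ ^ k) :
    ((chiP p σ : ℤ_[p]ˣ) : ℤ_[p]).toZModPow n = (k : ZMod (p ^ n)) := by
  haveI : NeZero (p ^ n) := ⟨(pow_pos' p n).ne'⟩
  rw [chiP_spec p σ n ζ hζ.pow_eq_one] at h
  have h2 := hζ.pow_inj (ZMod.val_lt _) (Nat.mod_lt k (pow_pos' p n))
    (by rw [h]; exact pow_eq_pow_mod k hζ.pow_eq_one :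
      ζ ^ (((chiP p σ : ℤ_[p]ˣ) : ℤ_[p]).toZModPow n).val = ζ ^ (k % p ^ n))
  have h3 : (((((chiP p σ : ℤ_[p]ˣ) : ℤ_[p]).toZModPow n).val : ℕ) : ZMod (p ^ n)) =
      ((k % p ^ n : ℕ) : ZMod (p ^ n)) := by rw [h2]
  rw [ZMod.natCast_zmod_val, ZMod.natCast_mod] at h3
  exact h3

/-- If `σ` acts on all `p`-power roots of unity as `ζ ↦ ζ ^ k`, then `χ σ = k`. -/
theorem chiP_eq_natCast (σ : GQ) (k : ℕ)
    (h : ∀ (n : ℕ) (ζ : Qb), ζ ^ p ^ n = 1 → σ ζ = ζ ^ k) :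
    ((chiP p σ : ℤ_[p]ˣ) : ℤ_[p]) = (k : ℤ_[p]) := by
  rw [← PadicInt.ext_of_toZModPow]
  intro n
  obtain ⟨ζ, hζ⟩ := exists_primitiveRoot_pow p n
  rw [chiP_toZModPow_of_primitiveRoot p σ n ζ hζ k (h n ζ hζ.pow_eq_one), map_natCast]

theorem natCast_pow_residue_ne_zero {ℓ : ℕ} (hℓ : ℓ.Prime) (hℓp : ℓ ≠ p)
    (A : ValuationSubring Qb) (hA : A.LiesOverPrime ℓ) (n : ℕ) :
    ((p ^ n : ℕ) : IsLocalRing.ResidueField A) ≠ 0 := by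
  have hpp : p.Prime := Fact.out
  exact h10_natCast_residue_ne_zero A hA (p ^ n)
    (Nat.Coprime.pow_left n ((Nat.coprime_primes hpp hℓ).2 (Ne.symm hℓp)))

/-- The `p`-adic cyclotomic character at a Frobenius over `ℓ ≠ p` is `ℓ`. -/
theorem chiP_frobenius {ℓ : ℕ} (hℓ : ℓ.Prime) (hℓp : ℓ ≠ p) (A : ValuationSubring Qb)
    (hA : A.LiesOverPrime ℓ) (σ : GQ) (hσ : A.IsFrobeniusAt σ ℓ) :
    ((chiP p σ : ℤ_[p]ˣ) : ℤ_[p]) = (ℓ : ℤ_[p]) :=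
  chiP_eq_natCast p σ ℓ fun n ζ hζ =>
    h10_frobenius_root A σ hσ (p ^ n) (natCast_pow_residue_ne_zero p hℓ hℓp A hA n) ζ hζ

/-- The `p`-adic cyclotomic character is trivial on inertia at `ℓ ≠ p`. -/
theorem chiP_inertia {ℓ : ℕ} (hℓ : ℓ.Prime) (hℓp : ℓ ≠ p) (A : ValuationSubring Qb)
    (hA : A.LiesOverPrime ℓ) (τ : GQ) (hτ : τ ∈ A.inertiaSubgroupIn ℚ) :
    chiP p τ = 1 := by
  apply Units.ext
  have h := chiP_eq_natCast p τ 1 fun n ζ hζ => by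
    rw [pow_one]
    exact h10_inertia_root A τ hτ (p ^ n) (natCast_pow_residue_ne_zero p hℓ hℓp A hA n) ζ hζ
  rw [h, Nat.cast_one, Units.val_one]

/-- Complex conjugation inverts roots of unity. -/
theorem complexConjugation_root (ζ : Qb) (m : ℕ) (hm : m ≠ 0) (hζ : ζ ^ m = 1) :
    complexConjugation ζ = ζ⁻¹ := by
  apply complexEmbedding.toRingHom.injective
  show complexEmbedding (complexConjugation ζ) = complexEmbedding ζ⁻¹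
  rw [complexEmbedding_complexConjugation, map_inv₀]
  have h1 : (complexEmbedding ζ) ^ m = 1 := by rw [← map_pow, hζ, map_one]
  exact (Complex.inv_eq_conj (Complex.norm_eq_one_of_pow_eq_one h1 hm)).symm

/-- The `p`-adic cyclotomic character at complex conjugation is `-1`. -/
theorem chiP_complexConjugation :
    ((chiP p complexConjugation : ℤ_[p]ˣ) : ℤ_[p]) = -1 := by
  rw [← PadicInt.ext_of_toZModPow]
  intro n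
  haveI : NeZero (p ^ n) := ⟨(pow_pos' p n).ne'⟩
  obtain ⟨ζ, hζ⟩ := exists_primitiveRoot_pow p n
  have h1 : complexConjugation ζ = ζ ^ (p ^ n - 1) := by
    rw [complexConjugation_root ζ (p ^ n) (pow_pos' p n).ne' hζ.pow_eq_one]
    apply inv_eq_of_mul_eq_one_right
    rw [← pow_succ', Nat.sub_add_cancel (pow_pos' p n), hζ.pow_eq_one]
  rw [chiP_toZModPow_of_primitiveRoot p _ n ζ hζ _ h1, map_neg, map_one,
    Nat.cast_sub (pow_pos' p n), Nat.cast_one, ZMod.natCast_self, zero_sub]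

/-- Level `ℚ(μ_{p^n})`: if `σ` fixes the `p ^ n`-th roots of unity then `χ σ ≡ 1 mod p ^ n`. -/
theorem chiP_sub_one_mem (n : ℕ) (σ : GQ) (h : ∀ ζ : Qb, ζ ^ p ^ n = 1 → σ ζ = ζ) :
    ((chiP p σ : ℤ_[p]ˣ) : ℤ_[p]) - 1 ∈ Ideal.span {(p : ℤ_[p]) ^ n} := by
  rw [← PadicInt.ker_toZModPow, RingHom.mem_ker, map_sub, map_one, sub_eq_zero]
  obtain ⟨ζ, hζ⟩ := exists_primitiveRoot_pow p n
  have h1 : σ ζ = ζ ^ 1 := by rw [pow_one]; exact h ζ hζ.pow_eq_one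
  rw [chiP_toZModPow_of_primitiveRoot p σ n ζ hζ 1 h1, Nat.cast_one]

/-- The defining property on `μ_{p^n}` with an explicit natural exponent. -/
theorem chiP_sub_natCast_mem (n : ℕ) (σ : GQ) :
    ∃ k : ℕ, ((chiP p σ : ℤ_[p]ˣ) : ℤ_[p]) - (k : ℤ_[p]) ∈ Ideal.span {(p : ℤ_[p]) ^ n} ∧
      ∀ ζ : Qb, ζ ^ p ^ n = 1 → σ ζ = ζ ^ k := by
  haveI : NeZero (p ^ n) := ⟨(pow_pos' p n).ne'⟩
  refine ⟨(((chiP p σ : ℤ_[p]ˣ) : ℤ_[p]).toZModPow n).val, ?_, fun ζ hζ => chiP_spec p σ n ζ hζ⟩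
  rw [← PadicInt.ker_toZModPow, RingHom.mem_ker, map_sub, map_natCast, ZMod.natCast_zmod_val,
    sub_self]

/-- Two ring homomorphisms from `ℤ_[p]` to a ring in which `p ^ m = 0` are equal. -/
theorem padicInt_ringHom_ext {R : Type*} [CommRing R] (m : ℕ) (hR : (p : R) ^ m = 0)
    (g₁ g₂ : ℤ_[p] →+* R) : g₁ = g₂ := by
  have key : ∀ (g : ℤ_[p] →+* R) (x : ℤ_[p]), g x = ((x.appr m : ℕ) : R) := by
    intro g x
    have h := PadicInt.appr_spec m x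
    rw [Ideal.mem_span_singleton] at h
    obtain ⟨y, hy⟩ := h
    have hx : x = ((x.appr m : ℕ) : ℤ_[p]) + (p : ℤ_[p]) ^ m * y := by rw [← hy]; ring
    conv_lhs => rw [hx]
    rw [map_add, map_mul, map_pow, map_natCast, map_natCast, hR, zero_mul, add_zero]
  ext x
  rw [key g₁ x, key g₂ x]

section Lift

variable (𝒪 : Type*) [CommRing 𝒪] [IsLocalRing 𝒪]
  (hp : (p : 𝒪) ∈ IsLocalRing.maximalIdeal 𝒪)

include hp in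
theorem natCast_pow_quot_eq_zero (n : ℕ) :
    ((p ^ n : ℕ) : 𝒪 ⧸ (IsLocalRing.maximalIdeal 𝒪) ^ n) = 0 := by
  have h1 : ((p ^ n : ℕ) : 𝒪) ∈ (IsLocalRing.maximalIdeal 𝒪) ^ n := by
    rw [Nat.cast_pow]
    exact Ideal.pow_mem_pow hp n
  have h2 := Ideal.Quotient.eq_zero_iff_mem.mpr h1
  rw [map_natCast] at h2
  exact h2

/-- The canonical ring homomorphism `ℤ/p^n → 𝒪/𝔪^n`. -/
def zmodTo (n : ℕ) : ZMod (p ^ n) →+* 𝒪 ⧸ (IsLocalRing.maximalIdeal 𝒪) ^ n :=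
  ZMod.castHom (ringChar.dvd (natCast_pow_quot_eq_zero p 𝒪 hp n))
    (𝒪 ⧸ (IsLocalRing.maximalIdeal 𝒪) ^ n)

variable [IsAdicComplete (IsLocalRing.maximalIdeal 𝒪) 𝒪]

/-- The canonical ring homomorphism `ℤ_[p] → 𝒪` for a complete local ring `𝒪` with `p ∈ 𝔪`. -/
def padicTo : ℤ_[p] →+* 𝒪 :=
  IsAdicComplete.liftRingHom (IsLocalRing.maximalIdeal 𝒪)
    (fun n => (zmodTo p 𝒪 hp n).comp (PadicInt.toZModPow n))
    (fun {m n} hle => padicInt_ringHom_ext p m (by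
      have := natCast_pow_quot_eq_zero p 𝒪 hp m
      rw [Nat.cast_pow] at this
      exact this) _ _)

theorem padicTo_sub_mem (x y : ℤ_[p]) (n : ℕ) (h : x - y ∈ Ideal.span {(p : ℤ_[p]) ^ n}) :
    padicTo p 𝒪 hp x - padicTo p 𝒪 hp y ∈ Ideal.span {(p : 𝒪) ^ n} := by
  rw [Ideal.mem_span_singleton] at h ⊢
  obtain ⟨z, hz⟩ := h
  refine ⟨padicTo p 𝒪 hp z, ?_⟩
  rw [← map_sub, hz, map_mul, map_pow, map_natCast]

/-- **The `p`-adic cyclotomic character with values in `𝒪ˣ`.** -/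
def cycAdic : GQ →* 𝒪ˣ :=
  (Units.map (padicTo p 𝒪 hp : ℤ_[p] →* 𝒪)).comp (chiP p)

theorem cycAdic_coe (σ : GQ) :
    ((cycAdic p 𝒪 hp σ : 𝒪ˣ) : 𝒪) = padicTo p 𝒪 hp ((chiP p σ : ℤ_[p]ˣ) : ℤ_[p]) := rfl

/-- (CYC-adic), as a Prop on a character `d`. -/
def StCycAdic (d : GQ →* 𝒪ˣ) : Prop :=
  (∀ ℓ : ℕ, ℓ.Prime → ℓ ≠ p → ∀ A : ValuationSubring Qb, A.LiesOverPrime ℓ →
      ∀ σ : GQ, A.IsFrobeniusAt σ ℓ → ((d σ : 𝒪ˣ) : 𝒪) = (ℓ : 𝒪)) ∧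
  (∀ ℓ : ℕ, ℓ.Prime → ℓ ≠ p → ∀ A : ValuationSubring Qb, A.LiesOverPrime ℓ →
      ∀ τ ∈ A.inertiaSubgroupIn ℚ, d τ = 1) ∧
  ((d complexConjugation : 𝒪ˣ) : 𝒪) = -1 ∧
  (∀ (n : ℕ) (σ : GQ), (∀ ζ : Qb, ζ ^ (p ^ n) = 1 → σ ζ = ζ) →
      ((d σ : 𝒪ˣ) : 𝒪) - 1 ∈ Ideal.span {((p : 𝒪)) ^ n}) ∧
  (∀ (n : ℕ) (σ : GQ), ∃ k : ℕ, ((d σ : 𝒪ˣ) : 𝒪) - (k : 𝒪) ∈ Ideal.span {((p : 𝒪)) ^ n} ∧
      ∀ ζ : Qb, ζ ^ (p ^ n) = 1 → σ ζ = ζ ^ k)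

theorem cycAdic_frobenius {ℓ : ℕ} (hℓ : ℓ.Prime) (hℓp : ℓ ≠ p) (A : ValuationSubring Qb)
    (hA : A.LiesOverPrime ℓ) (σ : GQ) (hσ : A.IsFrobeniusAt σ ℓ) :
    ((cycAdic p 𝒪 hp σ : 𝒪ˣ) : 𝒪) = (ℓ : 𝒪) := by
  rw [cycAdic_coe, chiP_frobenius p hℓ hℓp A hA σ hσ, map_natCast]

theorem cycAdic_inertia {ℓ : ℕ} (hℓ : ℓ.Prime) (hℓp : ℓ ≠ p) (A : ValuationSubring Qb)
    (hA : A.LiesOverPrime ℓ) (τ : GQ) (hτ : τ ∈ A.inertiaSubgroupIn ℚ) :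
    cycAdic p 𝒪 hp τ = 1 := by
  rw [cycAdic, MonoidHom.comp_apply, chiP_inertia p hℓ hℓp A hA τ hτ, map_one]

theorem cycAdic_complexConjugation :
    ((cycAdic p 𝒪 hp complexConjugation : 𝒪ˣ) : 𝒪) = -1 := by
  rw [cycAdic_coe, chiP_complexConjugation, map_neg, map_one]

theorem cycAdic_sub_one_mem (n : ℕ) (σ : GQ) (h : ∀ ζ : Qb, ζ ^ p ^ n = 1 → σ ζ = ζ) :
    ((cycAdic p 𝒪 hp σ : 𝒪ˣ) : 𝒪) - 1 ∈ Ideal.span {(p : 𝒪) ^ n} := by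
  have h1 := padicTo_sub_mem p 𝒪 hp _ 1 n (chiP_sub_one_mem p n σ h)
  rw [map_one] at h1
  exact h1

theorem cycAdic_sub_natCast_mem (n : ℕ) (σ : GQ) :
    ∃ k : ℕ, ((cycAdic p 𝒪 hp σ : 𝒪ˣ) : 𝒪) - (k : 𝒪) ∈ Ideal.span {(p : 𝒪) ^ n} ∧
      ∀ ζ : Qb, ζ ^ p ^ n = 1 → σ ζ = ζ ^ k := by
  obtain ⟨k, hk, hζ⟩ := chiP_sub_natCast_mem p n σ
  refine ⟨k, ?_, hζ⟩
  have h1 := padicTo_sub_mem p 𝒪 hp _ (k : ℤ_[p]) n hk
  rw [map_natCast] at h1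
  exact h1

/-- **(CYC-adic)** -/
theorem stCycAdic : StCycAdic p 𝒪 (cycAdic p 𝒪 hp) :=
  ⟨fun ℓ hℓ hℓp A hA σ hσ => cycAdic_frobenius p 𝒪 hp hℓ hℓp A hA σ hσ,
    fun ℓ hℓ hℓp A hA τ hτ => cycAdic_inertia p 𝒪 hp hℓ hℓp A hA τ hτ,
    cycAdic_complexConjugation p 𝒪 hp,
    fun n σ h => cycAdic_sub_one_mem p 𝒪 hp n σ h,
    fun n σ => cycAdic_sub_natCast_mem p 𝒪 hp n σ⟩

include hp in
theorem exists_cycAdic : ∃ d : GQ →* 𝒪ˣ, StCycAdic p 𝒪 d :=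
  ⟨cycAdic p 𝒪 hp, stCycAdic p 𝒪 hp⟩

end Lift

end Fermat.Agent.S30x.Cyc.H27
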