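import Fermat.Agent.S30x.Cyc.H10_PadicCyc
import Fermat.Agent.S30x.Asm.Defs

/-!
# W8 (CYCp): `Asm.StCycAdic p O` for a complete local ring `O` with `p` in the maximal ideal

The chief's Prop `Fermat.Agent.S30x.Asm.StCycAdic`, verbatim, from `h10dCyc`
(`S30x/Cyc/H10_PadicCyc`).  The continuity clause is stated there with the principal ideals
`span {p ^ n}`; this needs only that `h10zpHom` is a ring homomorphism.
-/

set_option autoImplicit false
set_option linter.unusedSectionVars false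

open ValuationSubring

noncomputable section

namespace Fermat.Agent.S30x.Cyc.H10

local notation "Qbar" => AlgebraicClosure ℚ

section Span

variable (p : ℕ) [Fact p.Prime] {O : Type*} [CommRing O] (I : Ideal O) [IsAdicComplete I O]

/-- `h10zpHom z ≡ z mod p ^ n`, in the principal-ideal form. -/
theorem h10zpHom_spec_span (hp : (p : O) ∈ I) (z : ℤ_[p]) (n : ℕ) :
    h10zpHom p I hp z - (((PadicInt.toZModPow n z).val : ℕ) : O) ∈ Ideal.span {(p : O) ^ n} := by
  have hne : NeZero (p ^ n) := ⟨pow_ne_zero n (Fact.out : p.Prime).ne_zero⟩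
  have h1 : z - (((PadicInt.toZModPow n z).val : ℕ) : ℤ_[p]) ∈
      RingHom.ker (PadicInt.toZModPow (p := p) n) := by
    rw [RingHom.mem_ker, map_sub, map_natCast, ZMod.natCast_zmod_val, sub_self]
  rw [PadicInt.ker_toZModPow] at h1
  obtain ⟨u, hu⟩ := Ideal.mem_span_singleton.1 h1
  have h2 : h10zpHom p I hp z - (((PadicInt.toZModPow n z).val : ℕ) : O) =
      (p : O) ^ n * h10zpHom p I hp u := by
    have h3 := congrArg (h10zpHom p I hp) hu
    rw [map_sub, map_natCast, map_mul, map_pow, map_natCast] at h3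
    exact h3
  rw [h2]
  exact Ideal.mul_mem_right _ _ (Ideal.subset_span rfl)

theorem h10_natCast_sub_mem_span (n : ℕ) (a b : ℕ) (h : a ≡ b [MOD p ^ n]) :
    (a : O) - (b : O) ∈ Ideal.span {(p : O) ^ n} := by
  have h1 : ((p ^ n : ℕ) : ℤ) ∣ (b : ℤ) - (a : ℤ) := (Nat.modEq_iff_dvd.1 h)
  obtain ⟨c, hc⟩ := h1
  have h2 : (a : O) - (b : O) = (p : O) ^ n * (-(c : O)) := by
    have h3 : ((b : ℤ) : O) - ((a : ℤ) : O) = (p : O) ^ n * (c : O) := by
      rw [← Int.cast_sub, hc]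
      push_cast
      ring
    simp only [Int.cast_natCast] at h3
    linear_combination -h3
  rw [h2]
  exact Ideal.mul_mem_right _ _ (Ideal.subset_span rfl)

/-- the character is determined modulo `p ^ n` by the action on one primitive `p ^ n`-th root
of unity (principal-ideal form of `h10dCyc_of_root`). -/
theorem h10dCyc_of_root_span (hp : (p : O) ∈ I) (σ : Qbar ≃ₐ[ℚ] Qbar) (n : ℕ) (k : ℕ)
    (ζ : Qbar) (hζ : IsPrimitiveRoot ζ (p ^ n)) (h : σ ζ = ζ ^ k) :
    ((h10dCyc p I hp σ : Oˣ) : O) - (k : O) ∈ Ideal.span {(p : O) ^ n} := by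
  have h1 : ζ ^ h10exp p σ n = ζ ^ k := by
    rw [← h10exp_spec p σ n ζ hζ.pow_eq_one, h]
  have h2 : h10exp p σ n ≡ k [MOD p ^ n] := by
    have hfin : IsOfFinOrder ζ :=
      isOfFinOrder_iff_pow_eq_one.2
        ⟨p ^ n, pow_pos (Fact.out : p.Prime).pos n, hζ.pow_eq_one⟩
    rw [hζ.eq_orderOf]
    exact hfin.pow_eq_pow_iff_modEq.1 h1
  have h3 := h10_natCast_sub_mem_span p (O := O) n _ _ h2
  have h4 : ((h10dCyc p I hp σ : Oˣ) : O) - ((h10exp p σ n : ℕ) : O) ∈
      Ideal.span {(p : O) ^ n} := h10zpHom_spec_span p I hp _ n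
  have h5 : ((h10dCyc p I hp σ : Oˣ) : O) - (k : O) =
      (((h10dCyc p I hp σ : Oˣ) : O) - ((h10exp p σ n : ℕ) : O)) +
        (((h10exp p σ n : ℕ) : O) - (k : O)) := by ring
  rw [h5]
  exact Ideal.add_mem _ h4 h3

/-- continuity in the principal-ideal form. -/
theorem h10dCyc_sub_one_mem_span (hp : (p : O) ∈ I) (n : ℕ) (σ : Qbar ≃ₐ[ℚ] Qbar)
    (h : ∀ x ∈ h10cycFieldPow p n, σ x = x) :
    ((h10dCyc p I hp σ : Oˣ) : O) - 1 ∈ Ideal.span {(p : O) ^ n} := by
  obtain ⟨ζ, hζ⟩ := h10_exists_primitiveRoot_pow p n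
  have h1 : σ ζ = ζ ^ 1 := by
    rw [pow_one]
    exact h ζ (h10_mem_cycFieldPow p n ζ hζ.pow_eq_one)
  have h2 := h10dCyc_of_root_span p I hp σ n 1 ζ hζ h1
  rwa [Nat.cast_one] at h2

/-- the spec in the principal-ideal form. -/
theorem h10dCyc_spec_span (hp : (p : O) ∈ I) (σ : Qbar ≃ₐ[ℚ] Qbar) (n : ℕ) :
    ∃ k : ℕ, (∀ ζ : Qbar, ζ ^ (p ^ n) = 1 → σ ζ = ζ ^ k) ∧
      ((h10dCyc p I hp σ : Oˣ) : O) - (k : O) ∈ Ideal.span {(p : O) ^ n} :=
  ⟨h10exp p σ n, fun ζ hζ => h10exp_spec p σ n ζ hζ, h10zpHom_spec_span p I hp _ n⟩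

end Span

/-- **(CYCp)** the chief's `StCycAdic`, for any ring `O` complete for an ideal containing `p`. -/
theorem h10_stCycAdic_of_complete (p : ℕ) [Fact p.Prime] (O : Type) [CommRing O] (I : Ideal O)
    [IsAdicComplete I O] (hp : (p : O) ∈ I) : Fermat.Agent.S30x.Asm.StCycAdic p O := by
  refine ⟨h10dCyc p I hp, ?_, h10dCyc_conj p I hp, ?_⟩
  · intro ℓ hℓ hℓp A hA
    exact ⟨fun τ hτ => h10dCyc_inertia p I hp hℓ hℓp A hA τ hτ,
      fun σ hσ => h10dCyc_frobenius p I hp hℓ hℓp A hA σ hσ⟩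
  · intro n
    exact ⟨h10cycFieldPow p n, inferInstance, fun σ hσ => h10dCyc_sub_one_mem_span p I hp n σ hσ⟩

/-- **(CYCp)** the chief's `StCycAdic` for a complete local ring with `p` in the maximal
ideal. -/
theorem h10_stCycAdic (p : ℕ) [Fact p.Prime] (O : Type) [CommRing O] [IsLocalRing O]
    [IsAdicComplete (IsLocalRing.maximalIdeal O) O] (hp : (p : O) ∈ IsLocalRing.maximalIdeal O) :
    Fermat.Agent.S30x.Asm.StCycAdic p O :=
  h10_stCycAdic_of_complete p O (IsLocalRing.maximalIdeal O) hp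

end Fermat.Agent.S30x.Cyc.H10
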