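import Mathlib
import Fermat.Prelude.Def_GaloisRep_ComplexConjugation
import Fermat.Agent.S42x.Cyc.H10_Cyc

/-!
# W8 (AD-d): the `p`-adic cyclotomic character with values in a complete ring

`O` a commutative ring, complete for the `I`-adic topology, with `p ∈ I` (e.g. a complete local
ring with `p` in the maximal ideal).  `Qbar = AlgebraicClosure ℚ`, `G = Qbar ≃ₐ[ℚ] Qbar`.

* `h10zpHom p I hp : ℤ_[p] →+* O`, with `h10zpHom_spec`;
* `h10dCyc p I hp : G →* Oˣ`, the `p`-adic cyclotomic character pushed to `O`;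
* `h10dCyc_spec`, `h10dCyc_of_root` : `d σ ≡ k` modulo `I ^ n` when `σ ζ = ζ ^ k` on `μ_(p^n)`;
* `h10dCyc_frobenius` : `d σ = ℓ` at a Frobenius over `ℓ ≠ p` (needs `I`-adic separatedness only);
* `h10dCyc_inertia` : `d τ = 1` on inertia at `ℓ ≠ p`;
* `h10dCyc_conj` : `d c = -1` for the complex conjugation of the prelude;
* `h10dCyc_level`, `h10dCyc_eq_of_eqOn` : continuity (`d` modulo `I ^ n` factors through
  `ℚ(μ_(p^n))`).
-/

set_option autoImplicit false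
set_option linter.unusedSectionVars false
set_option linter.unusedVariables false

open ValuationSubring

noncomputable section

namespace Fermat.Agent.S30x.Cyc.H10

open Fermat.Agent.S42x.Cyc.H10

local notation "Qbar" => AlgebraicClosure ℚ

section ZpHom

variable (p : ℕ) [Fact p.Prime] {O : Type*} [CommRing O] (I : Ideal O)

/-- congruent naturals have congruent images. -/
theorem h10_natCast_sub_mem (hp : (p : O) ∈ I) (n : ℕ) (a b : ℕ) (h : a ≡ b [MOD p ^ n]) :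
    (a : O) - (b : O) ∈ I ^ n := by
  have h1 : ((p ^ n : ℕ) : ℤ) ∣ (b : ℤ) - (a : ℤ) := (Nat.modEq_iff_dvd.1 h)
  obtain ⟨c, hc⟩ := h1
  have h2 : (a : O) - (b : O) = (p : O) ^ n * (-(c : O)) := by
    have h3 : ((b : ℤ) : O) - ((a : ℤ) : O) = (p : O) ^ n * (c : O) := by
      rw [← Int.cast_sub, hc]
      push_cast
      ring
    simp only [Int.cast_natCast] at h3
    linear_combination -h3
  rw [h2]
  exact Ideal.mul_mem_right _ _ (Ideal.pow_mem_pow hp n)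

/-- The ring homomorphism `ZMod (p ^ n) →+* O ⧸ I ^ n`. -/
def h10zmodToQuot (hp : (p : O) ∈ I) (n : ℕ) : ZMod (p ^ n) →+* O ⧸ I ^ n :=
  (Ideal.Quotient.lift (Ideal.span {((p ^ n : ℕ) : ℤ)}) (Int.castRingHom (O ⧸ I ^ n)) (by
    intro a ha
    obtain ⟨b, rfl⟩ := Ideal.mem_span_singleton.1 ha
    have h1 : (((p ^ n : ℕ) : ℤ) : O ⧸ I ^ n) = 0 := by
      have h2 : (((p ^ n : ℕ) : ℤ) : O ⧸ I ^ n) = Ideal.Quotient.mk (I ^ n) ((p : O) ^ n) := by
        simp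
      rw [h2, Ideal.Quotient.eq_zero_iff_mem]
      exact Ideal.pow_mem_pow hp n
    rw [map_mul, eq_intCast, h1, zero_mul])).comp
    (Int.quotientSpanNatEquivZMod (p ^ n)).symm.toRingHom

theorem h10zmodToQuot_apply (hp : (p : O) ∈ I) (n : ℕ) (a : ZMod (p ^ n)) :
    h10zmodToQuot p I hp n a = Ideal.Quotient.mk (I ^ n) ((a.val : ℕ) : O) := by
  have : NeZero (p ^ n) := ⟨pow_ne_zero n (Fact.out : p.Prime).ne_zero⟩
  conv_lhs => rw [← ZMod.natCast_zmod_val a, map_natCast]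
  rw [map_natCast]

variable [IsAdicComplete I O]

/-- The ring homomorphism `ℤ_[p] →+* O` for an `I`-adically complete ring `O` with `p ∈ I`. -/
def h10zpHom (hp : (p : O) ∈ I) : ℤ_[p] →+* O :=
  IsAdicComplete.liftRingHom I
    (fun n => (h10zmodToQuot p I hp n).comp (PadicInt.toZModPow n))
    (by
      intro m n hle
      rw [← RingHom.comp_assoc]
      have h1 : (Ideal.Quotient.factorPow I hle).comp (h10zmodToQuot p I hp n) =
          (h10zmodToQuot p I hp m).comp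
            (ZMod.castHom (pow_dvd_pow p hle) (ZMod (p ^ m))) := RingHom.ext_zmod _ _
      rw [h1, RingHom.comp_assoc, PadicInt.zmod_cast_comp_toZModPow m n hle])

theorem h10zpHom_spec (hp : (p : O) ∈ I) (z : ℤ_[p]) (n : ℕ) :
    h10zpHom p I hp z - (((PadicInt.toZModPow n z).val : ℕ) : O) ∈ I ^ n := by
  have h1 := IsAdicComplete.mk_liftRingHom I
    (fun n => (h10zmodToQuot p I hp n).comp (PadicInt.toZModPow n))
    (by
      intro m n hle
      rw [← RingHom.comp_assoc]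
      have h1 : (Ideal.Quotient.factorPow I hle).comp (h10zmodToQuot p I hp n) =
          (h10zmodToQuot p I hp m).comp
            (ZMod.castHom (pow_dvd_pow p hle) (ZMod (p ^ m))) := RingHom.ext_zmod _ _
      rw [h1, RingHom.comp_assoc, PadicInt.zmod_cast_comp_toZModPow m n hle]) n z
  rw [RingHom.comp_apply, h10zmodToQuot_apply] at h1
  exact (Ideal.Quotient.eq).1 h1

/-- `I`-adic separatedness, in ideal form. -/
theorem h10_eq_of_forall_sub_mem (a b : O) (h : ∀ n, a - b ∈ I ^ n) : a = b := by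
  have h1 : a - b = 0 := by
    apply IsHausdorff.haus (IsAdicComplete.toIsHausdorff (I := I) (M := O)) (a - b)
    intro n
    rw [SModEq.zero, smul_eq_mul, Ideal.mul_top]
    exact h n
  exact sub_eq_zero.1 h1

end ZpHom

section DCyc

variable (p : ℕ) [Fact p.Prime] {O : Type*} [CommRing O] (I : Ideal O) [IsAdicComplete I O]

/-- The `p`-adic cyclotomic character of `G_ℚ` with values in `Oˣ`. -/
def h10dCyc (hp : (p : O) ∈ I) : (Qbar ≃ₐ[ℚ] Qbar) →* Oˣ :=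
  (Units.map (h10zpHom p I hp : ℤ_[p] →* O)).comp
    ((cyclotomicCharacter Qbar p).comp (MulSemiringAction.toRingAut (Qbar ≃ₐ[ℚ] Qbar) Qbar))

/-- the exponent of `σ` on `μ_(p^n)`. -/
def h10exp (σ : Qbar ≃ₐ[ℚ] Qbar) (n : ℕ) : ℕ :=
  (PadicInt.toZModPow n
    ((cyclotomicCharacter Qbar p (MulSemiringAction.toRingAut (Qbar ≃ₐ[ℚ] Qbar) Qbar σ) :
      ℤ_[p]ˣ) : ℤ_[p])).val

theorem h10exp_spec (σ : Qbar ≃ₐ[ℚ] Qbar) (n : ℕ) (ζ : Qbar) (hζ : ζ ^ (p ^ n) = 1) :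
    σ ζ = ζ ^ h10exp p σ n :=
  cyclotomicCharacter.spec (L := Qbar) p
    (MulSemiringAction.toRingAut (Qbar ≃ₐ[ℚ] Qbar) Qbar σ) ζ hζ

theorem h10dCyc_sub_exp_mem (hp : (p : O) ∈ I) (σ : Qbar ≃ₐ[ℚ] Qbar) (n : ℕ) :
    ((h10dCyc p I hp σ : Oˣ) : O) - ((h10exp p σ n : ℕ) : O) ∈ I ^ n :=
  h10zpHom_spec p I hp _ n

/-- **(d1)** -/
theorem h10dCyc_spec (hp : (p : O) ∈ I) (σ : Qbar ≃ₐ[ℚ] Qbar) (n : ℕ) :
    ∃ k : ℕ, (∀ ζ : Qbar, ζ ^ (p ^ n) = 1 → σ ζ = ζ ^ k) ∧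
      ((h10dCyc p I hp σ : Oˣ) : O) - (k : O) ∈ I ^ n :=
  ⟨h10exp p σ n, fun ζ hζ => h10exp_spec p σ n ζ hζ, h10dCyc_sub_exp_mem p I hp σ n⟩

theorem h10_exists_primitiveRoot_pow (n : ℕ) : ∃ ζ : Qbar, IsPrimitiveRoot ζ (p ^ n) := by
  have : NeZero (p ^ n) := ⟨pow_ne_zero n (Fact.out : p.Prime).ne_zero⟩
  exact HasEnoughRootsOfUnity.exists_primitiveRoot Qbar (p ^ n)

/-- **(d2)** the character is determined modulo `I ^ n` by the action on one primitive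
`p ^ n`-th root of unity. -/
theorem h10dCyc_of_root (hp : (p : O) ∈ I) (σ : Qbar ≃ₐ[ℚ] Qbar) (n : ℕ) (k : ℕ) (ζ : Qbar)
    (hζ : IsPrimitiveRoot ζ (p ^ n)) (h : σ ζ = ζ ^ k) :
    ((h10dCyc p I hp σ : Oˣ) : O) - (k : O) ∈ I ^ n := by
  have h1 : ζ ^ h10exp p σ n = ζ ^ k := by
    rw [← h10exp_spec p σ n ζ hζ.pow_eq_one, h]
  have h2 : h10exp p σ n ≡ k [MOD p ^ n] := by
    have hfin : IsOfFinOrder ζ :=
      isOfFinOrder_iff_pow_eq_one.2
        ⟨p ^ n, pow_pos (Fact.out : p.Prime).pos n, hζ.pow_eq_one⟩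
    rw [hζ.eq_orderOf]
    exact hfin.pow_eq_pow_iff_modEq.1 h1
  have h3 := h10_natCast_sub_mem p I hp n _ _ h2
  have h4 := h10dCyc_sub_exp_mem p I hp σ n
  have h5 : ((h10dCyc p I hp σ : Oˣ) : O) - (k : O) =
      (((h10dCyc p I hp σ : Oˣ) : O) - ((h10exp p σ n : ℕ) : O)) +
        (((h10exp p σ n : ℕ) : O) - (k : O)) := by ring
  rw [h5]
  exact Ideal.add_mem _ h4 h3

/-- `d σ = k` if `σ` raises every `p`-power root of unity to the `k`-th power. -/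
theorem h10dCyc_eq_of_forall_root (hp : (p : O) ∈ I) (σ : Qbar ≃ₐ[ℚ] Qbar) (a : O)
    (h : ∀ n, ∃ k : ℕ, (k : O) - a ∈ I ^ n ∧
      ∃ ζ : Qbar, IsPrimitiveRoot ζ (p ^ n) ∧ σ ζ = ζ ^ k) :
    ((h10dCyc p I hp σ : Oˣ) : O) = a := by
  refine h10_eq_of_forall_sub_mem I _ _ fun n => ?_
  obtain ⟨k, hk, ζ, hζ, hσ⟩ := h n
  have h1 := h10dCyc_of_root p I hp σ n k ζ hζ hσ
  have h2 : ((h10dCyc p I hp σ : Oˣ) : O) - a =
      (((h10dCyc p I hp σ : Oˣ) : O) - (k : O)) + ((k : O) - a) := by ring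
  rw [h2]
  exact Ideal.add_mem _ h1 hk

theorem h10_pow_residue_ne_zero {ℓ : ℕ} (hℓ : ℓ.Prime) (hℓp : ℓ ≠ p) (A : ValuationSubring Qbar)
    (hA : A.LiesOverPrime ℓ) (n : ℕ) : (((p ^ n : ℕ) : ℕ) : IsLocalRing.ResidueField A) ≠ 0 := by
  have hpp : p.Prime := Fact.out
  exact h10_natCast_residue_ne_zero A hA (p ^ n)
    (Nat.Coprime.pow_left n ((Nat.coprime_primes hpp hℓ).2 (Ne.symm hℓp)))

/-- **(d3)** the character at a Frobenius over `ℓ ≠ p` is `ℓ`. -/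
theorem h10dCyc_frobenius (hp : (p : O) ∈ I) {ℓ : ℕ} (hℓ : ℓ.Prime) (hℓp : ℓ ≠ p)
    (A : ValuationSubring Qbar) (hA : A.LiesOverPrime ℓ) (σ : Qbar ≃ₐ[ℚ] Qbar)
    (hσ : A.IsFrobeniusAt σ ℓ) : ((h10dCyc p I hp σ : Oˣ) : O) = (ℓ : O) := by
  refine h10dCyc_eq_of_forall_root p I hp σ _ fun n => ?_
  obtain ⟨ζ, hζ⟩ := h10_exists_primitiveRoot_pow p n
  refine ⟨ℓ, by rw [sub_self]; exact Ideal.zero_mem _, ζ, hζ, ?_⟩
  exact h10_frobenius_root A σ hσ (p ^ n) (h10_pow_residue_ne_zero p hℓ hℓp A hA n) ζ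
    hζ.pow_eq_one

/-- **(d4)** the character is trivial on inertia at `ℓ ≠ p`. -/
theorem h10dCyc_inertia (hp : (p : O) ∈ I) {ℓ : ℕ} (hℓ : ℓ.Prime) (hℓp : ℓ ≠ p)
    (A : ValuationSubring Qbar) (hA : A.LiesOverPrime ℓ) (τ : Qbar ≃ₐ[ℚ] Qbar)
    (hτ : τ ∈ A.inertiaSubgroupIn ℚ) : h10dCyc p I hp τ = 1 := by
  refine Units.ext ?_
  rw [Units.val_one]
  refine h10dCyc_eq_of_forall_root p I hp τ _ fun n => ?_
  obtain ⟨ζ, hζ⟩ := h10_exists_primitiveRoot_pow p n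
  refine ⟨1, by rw [Nat.cast_one, sub_self]; exact Ideal.zero_mem _, ζ, hζ, ?_⟩
  rw [pow_one]
  exact h10_inertia_root A τ hτ (p ^ n) (h10_pow_residue_ne_zero p hℓ hℓp A hA n) ζ
    hζ.pow_eq_one

/-- complex conjugation inverts the roots of unity. -/
theorem h10_conj_root (ζ : Qbar) (m : ℕ) (hm : m ≠ 0) (hζ : ζ ^ m = 1) :
    complexConjugation ζ = ζ⁻¹ := by
  apply complexEmbedding.toRingHom.injective
  change complexEmbedding (complexConjugation ζ) = complexEmbedding ζ⁻¹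
  rw [complexEmbedding_complexConjugation, map_inv₀]
  have h1 : (complexEmbedding ζ) ^ m = 1 := by rw [← map_pow, hζ, map_one]
  exact (Complex.inv_eq_conj (Complex.norm_eq_one_of_pow_eq_one h1 hm)).symm

/-- **(d5)** the character at the complex conjugation is `-1`. -/
theorem h10dCyc_conj (hp : (p : O) ∈ I) :
    h10dCyc p I hp complexConjugation = -1 := by
  have hpp : p.Prime := Fact.out
  refine Units.ext ?_
  rw [Units.val_neg, Units.val_one]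
  refine h10dCyc_eq_of_forall_root p I hp complexConjugation _ fun n => ?_
  obtain ⟨ζ, hζ⟩ := h10_exists_primitiveRoot_pow p n
  have hpos : 0 < p ^ n := pow_pos hpp.pos n
  refine ⟨p ^ n - 1, ?_, ζ, hζ, ?_⟩
  · have h1 : ((p ^ n - 1 : ℕ) : O) - (-1) = (p : O) ^ n := by
      rw [Nat.cast_sub hpos, Nat.cast_pow, Nat.cast_one]
      ring
    rw [h1]
    exact Ideal.pow_mem_pow hp n
  · rw [h10_conj_root ζ (p ^ n) hpos.ne' hζ.pow_eq_one]
    have h2 : ζ ^ (p ^ n - 1) * ζ = 1 := by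
      rw [← pow_succ, Nat.sub_add_cancel hpos, hζ.pow_eq_one]
    exact (eq_inv_of_mul_eq_one_left h2).symm

/-- The field `ℚ(μ_(p^n))`. -/
def h10cycFieldPow (n : ℕ) : IntermediateField ℚ Qbar :=
  IntermediateField.adjoin ℚ {ζ : Qbar | ζ ^ (p ^ n) = 1}

theorem h10_mem_cycFieldPow (n : ℕ) (ζ : Qbar) (hζ : ζ ^ (p ^ n) = 1) :
    ζ ∈ h10cycFieldPow p n :=
  IntermediateField.subset_adjoin ℚ _ hζ

theorem h10_rootsPow_eq_rootSet (n : ℕ) :
    {ζ : Qbar | ζ ^ (p ^ n) = 1} = (Polynomial.X ^ (p ^ n) - 1 : Polynomial ℚ).rootSet Qbar := by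
  have hpp : p.Prime := Fact.out
  ext ζ
  have hne : (Polynomial.X ^ (p ^ n) - 1 : Polynomial ℚ) ≠ 0 := by
    have := Polynomial.X_pow_sub_C_ne_zero (R := ℚ) (pow_pos hpp.pos n) 1
    rwa [map_one] at this
  simp [Polynomial.mem_rootSet, hne, sub_eq_zero]

theorem h10_rootsPow_finite (n : ℕ) : {ζ : Qbar | ζ ^ (p ^ n) = 1}.Finite := by
  rw [h10_rootsPow_eq_rootSet]
  exact Polynomial.rootSet_finite _ _

instance h10cycFieldPow_finiteDimensional (n : ℕ) :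
    FiniteDimensional ℚ (h10cycFieldPow p n) := by
  have : Finite {ζ : Qbar | ζ ^ (p ^ n) = 1} := (h10_rootsPow_finite p n).to_subtype
  have : Algebra.IsAlgebraic ℚ Qbar := AlgebraicClosure.isAlgebraic ℚ
  exact IntermediateField.finiteDimensional_adjoin
    (fun ζ _ => (Algebra.IsAlgebraic.isAlgebraic (R := ℚ) ζ).isIntegral)

instance h10cycFieldPow_isGalois (n : ℕ) : IsGalois ℚ (h10cycFieldPow p n) := by
  have : Normal ℚ (h10cycFieldPow p n) := by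
    unfold h10cycFieldPow
    rw [h10_rootsPow_eq_rootSet]
    exact Normal.of_isSplittingField (Polynomial.X ^ (p ^ n) - 1 : Polynomial ℚ)
      (hFEp := IntermediateField.adjoin_rootSet_isSplittingField (IsAlgClosed.splits _))
  exact ⟨⟩

/-- **(d6)**, explicit form: `d` modulo `I ^ n` is trivial on automorphisms fixing
`ℚ(μ_(p^n))`. -/
theorem h10dCyc_sub_one_mem (hp : (p : O) ∈ I) (n : ℕ) (σ : Qbar ≃ₐ[ℚ] Qbar)
    (h : ∀ x ∈ h10cycFieldPow p n, σ x = x) :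
    ((h10dCyc p I hp σ : Oˣ) : O) - 1 ∈ I ^ n := by
  obtain ⟨ζ, hζ⟩ := h10_exists_primitiveRoot_pow p n
  have h1 : σ ζ = ζ ^ 1 := by
    rw [pow_one]
    exact h ζ (h10_mem_cycFieldPow p n ζ hζ.pow_eq_one)
  have h2 := h10dCyc_of_root p I hp σ n 1 ζ hζ h1
  rwa [Nat.cast_one] at h2

/-- **(d6)** continuity of the character. -/
theorem h10dCyc_level (hp : (p : O) ∈ I) (n : ℕ) :
    ∃ K : IntermediateField ℚ Qbar, FiniteDimensional ℚ K ∧ IsGalois ℚ K ∧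
      (∀ ζ : Qbar, ζ ^ (p ^ n) = 1 → ζ ∈ K) ∧
      ∀ σ : Qbar ≃ₐ[ℚ] Qbar, (∀ x ∈ K, σ x = x) →
        ((h10dCyc p I hp σ : Oˣ) : O) - 1 ∈ I ^ n :=
  ⟨h10cycFieldPow p n, inferInstance, inferInstance, h10_mem_cycFieldPow p n,
    h10dCyc_sub_one_mem p I hp n⟩

/-- **(d7)** automorphisms agreeing on `ℚ(μ_(p^n))` have congruent characters. -/
theorem h10dCyc_eq_of_eqOn (hp : (p : O) ∈ I) (n : ℕ) (σ τ : Qbar ≃ₐ[ℚ] Qbar)
    (h : ∀ x ∈ h10cycFieldPow p n, σ x = τ x) :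
    ((h10dCyc p I hp σ : Oˣ) : O) - ((h10dCyc p I hp τ : Oˣ) : O) ∈ I ^ n := by
  have h1 : ((h10dCyc p I hp (τ⁻¹ * σ) : Oˣ) : O) - 1 ∈ I ^ n := by
    apply h10dCyc_sub_one_mem
    intro x hx
    change τ⁻¹ (σ x) = x
    rw [h x hx]
    exact τ.symm_apply_apply x
  have h2 : ((h10dCyc p I hp σ : Oˣ) : O) - ((h10dCyc p I hp τ : Oˣ) : O) =
      ((h10dCyc p I hp τ : Oˣ) : O) * (((h10dCyc p I hp (τ⁻¹ * σ) : Oˣ) : O) - 1) := by
    rw [map_mul, map_inv, Units.val_mul, mul_sub, mul_one, ← mul_assoc, Units.mul_inv, one_mul]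
  rw [h2]
  exact Ideal.mul_mem_left _ _ h1

/-- the character on a power of a Frobenius: `d (σ ^ j) = ℓ ^ j`. -/
theorem h10dCyc_frobenius_pow (hp : (p : O) ∈ I) {ℓ : ℕ} (hℓ : ℓ.Prime) (hℓp : ℓ ≠ p)
    (A : ValuationSubring Qbar) (hA : A.LiesOverPrime ℓ) (σ : Qbar ≃ₐ[ℚ] Qbar)
    (hσ : A.IsFrobeniusAt σ ℓ) (j : ℕ) :
    ((h10dCyc p I hp (σ ^ j) : Oˣ) : O) = (ℓ : O) ^ j := by
  rw [map_pow, Units.val_pow_eq_pow_val, h10dCyc_frobenius p I hp hℓ hℓp A hA σ hσ]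

end DCyc

end Fermat.Agent.S30x.Cyc.H10
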